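import Fermat.Agent.ThetaOne.SelfDual
import Fermat.Agent.Tau.SiegelBound
import Fermat.Agent.PrimeTwoSquares.Chi

/-!
# `L (s, χ)` for the character modulo `4`

No zero on the positive real axis, and zeros in the strip symmetric about `1/2`.
-/

set_option autoImplicit false

noncomputable section

namespace FA.PrimeRace

open Complex Filter Topology MeasureTheory
open FA.OrderTheta (chiFourC dft_chiFourC)
open FA.PrimeTwoSquares (chi chi_eq_ite)
open DirichletCharacter (LFunction completedLFunction gammaFactor)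

/-- `L (s, χ₄)`. -/
def lChi (s : ℂ) : ℂ := LFunction chiFourC s

theorem chiFourC_natCast (n : ℕ) : chiFourC (n : ZMod 4) = (chi n : ℂ) := by
  show ((ZMod.χ₄ (n : ZMod 4) : ℤ) : ℂ) = _
  rw [chi, ofReal_intCast]

theorem chiFourC_ne_one : chiFourC ≠ 1 := fun h => by
  have h3 := congrArg (fun χ : DirichletCharacter ℂ 4 => χ ((3 : ℕ) : ZMod 4)) h
  simp only [chiFourC_natCast, chi_eq_ite] at h3
  rw [MulChar.one_apply (show IsUnit ((3 : ℕ) : ZMod 4) by decide)] at h3
  norm_num at h3

theorem chiFourC_odd : chiFourC.Odd := by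
  show chiFourC (-1) = -1
  rw [show (-1 : ZMod 4) = ((3 : ℕ) : ZMod 4) by decide, chiFourC_natCast, chi_eq_ite]
  norm_num

theorem differentiable_lChi : Differentiable ℂ lChi :=
  DirichletCharacter.differentiable_LFunction chiFourC_ne_one

theorem lChi_ne_zero_of_one_le_re {s : ℂ} (hs : 1 ≤ s.re) : lChi s ≠ 0 :=
  DirichletCharacter.LFunction_ne_zero_of_one_le_re chiFourC (Or.inl chiFourC_ne_one) hs

theorem sum_chi_mem (N : ℕ) :
    ∑ k ∈ Finset.Icc 1 N, chi k = if N % 4 = 1 ∨ N % 4 = 2 then 1 else 0 := by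
  induction N with
  | zero => simp
  | succ N ih =>
    rw [Finset.sum_Icc_succ_top (by omega), ih, chi_eq_ite]
    split_ifs <;> first | (exfalso; omega) | norm_num

/-- **No zero for `σ > 0`.** -/
theorem lChi_real_ne_zero {σ : ℝ} (hσ : 0 < σ) : lChi σ ≠ 0 := by
  obtain ⟨S, hS⟩ : ∃ S : ℝ → ℝ, S = fun t =>
      if ⌊t⌋₊ % 4 = 1 ∨ ⌊t⌋₊ % 4 = 2 then 1 else 0 := ⟨_, rfl⟩
  have hsum : ∀ t, FA.Siegel.charSum chiFourC t = (S t : ℂ) := fun t => by
    rw [FA.Siegel.charSum, hS]
    simp only [← sum_chi_mem, ofReal_sum]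
    exact Finset.sum_congr rfl fun k _ => chiFourC_natCast k
  have hint := FA.Siegel.integrable_integrand chiFourC_ne_one (s := (σ : ℂ)) (by simpa using hσ)
  have he : ∀ t ∈ Set.Ioi (1 : ℝ), FA.Siegel.charSum chiFourC t * (t : ℂ) ^ (-((σ : ℂ) + 1)) =
      ((S t * t ^ (-(σ + 1)) : ℝ) : ℂ) := fun t (ht : 1 < t) => by
    rw [hsum, ofReal_mul, ofReal_cpow (by linarith)]
    push_cast
    rfl
  have hreal : IntegrableOn (fun t : ℝ => S t * t ^ (-(σ + 1))) (Set.Ioi 1) :=
    IntegrableOn.congr_fun hint.re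
      (fun t ht => (congrArg Complex.re (he t ht)).trans (ofReal_re _)) measurableSet_Ioi
  have hnn : ∀ t ∈ Set.Ioi (1 : ℝ), 0 ≤ S t * t ^ (-(σ + 1)) := fun t (ht : 1 < t) => by
    refine mul_nonneg ?_ (Real.rpow_nonneg (by linarith) _)
    rw [hS]
    simp only
    split_ifs <;> norm_num
  have hpos : 0 < ∫ t in Set.Ioi (1 : ℝ), S t * t ^ (-(σ + 1)) := by
    have h2 : (0 : ℝ) < ∫ _ in Set.Ioo (1 : ℝ) 2, (2 : ℝ) ^ (-(σ + 1)) := by
      rw [setIntegral_const, Real.volume_real_Ioo_of_le one_le_two, smul_eq_mul]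
      norm_num
      positivity
    refine h2.trans_le ((setIntegral_mono_on (integrableOn_const (by simp))
      (hreal.mono_set Set.Ioo_subset_Ioi_self) measurableSet_Ioo fun t ht => ?_).trans
      (setIntegral_mono_set hreal (by
        filter_upwards [ae_restrict_mem measurableSet_Ioi] with t ht using hnn t ht)
        (Eventually.of_forall Set.Ioo_subset_Ioi_self)))
    have hfl : ⌊t⌋₊ = 1 := (Nat.floor_eq_iff (by linarith [ht.1])).2
      ⟨by push_cast; linarith [ht.1], by push_cast; linarith [ht.2]⟩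
    have hS1 : S t = 1 := by simp [hS, hfl]
    rw [hS1, one_mul]
    exact Real.rpow_le_rpow_of_nonpos (by linarith [ht.1]) ht.2.le (by linarith)
  rw [lChi, FA.Siegel.lfunction_eq chiFourC_ne_one (by simpa using hσ), FA.Siegel.tail,
    setIntegral_congr_fun measurableSet_Ioi he, integral_complex_ofReal]
  exact mul_ne_zero (ofReal_ne_zero.2 hσ.ne') (ofReal_ne_zero.2 hpos.ne')

/-- **The symmetry of the zeros.** -/
theorem lChi_one_sub_eq_zero {s : ℂ} (h0 : 0 < s.re) (h : lChi s = 0) : lChi (1 - s) = 0 := by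
  have hne : gammaFactor chiFourC s ≠ 0 := by
    rw [chiFourC_odd.gammaFactor_def]
    exact Gammaℝ_ne_zero_of_re_pos (by simp; linarith)
  rw [lChi, DirichletCharacter.LFunction_eq_completed_div_gammaFactor chiFourC s
    (Or.inr (by norm_num)), div_eq_zero_iff, or_iff_left hne] at h
  have hΦ : Function.Odd (chiFourC : ZMod 4 → ℂ) := chiFourC_odd.to_fun
  rw [lChi, DirichletCharacter.LFunction_eq_completed_div_gammaFactor chiFourC (1 - s)
    (Or.inr (by norm_num)), completedLFunction, ZMod.completedLFunction_one_sub_odd hΦ,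
    show ZMod.dft (chiFourC : ZMod 4 → ℂ) = fun k => -(2 * Complex.I) * chiFourC k from
      funext fun k => dft_chiFourC k]
  rw [completedLFunction] at h
  rw [ZMod.completedLFunction_const_mul, h]
  simp

end FA.PrimeRace

end
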