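import Fermat.Agent.PrimeRace.Theta

/-!
# Phragmén's theorem

`π (n; 4, 3) - π (n; 4, 1) > c √n / log n` infinitely often for every `c < 1`. The derivative of
the series of the difference continues along the real axis by a primitive of that of `θ`; at
`1/2` the squares of the primes give it a simple pole.
-/

set_option autoImplicit false

noncomputable section

namespace FA.PrimeRace

open Complex Filter Topology Set
open FA.PrimeTwoSquares (chi abs_chi_le)
open scoped ComplexOrder

/-- `-χ n` at the primes. -/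
def primeSign (n : ℕ) : ℝ := if n.Prime then -chi n else 0

/-- `π (n; 4, 3) - π (n; 4, 1)`. -/
def countRace (n : ℕ) : ℝ := ∑ k ∈ Finset.Icc 1 n, primeSign k

/-- The deviation of its series. -/
def countDefect : ℂ → ℂ := FA.OneSided.defect fun n => (primeSign n : ℂ)

/-- `∑ countRace n n ^ (-(z + 1))`. -/
def countSeries (z : ℂ) : ℂ := LSeries (fun n => (countRace n : ℂ)) (z + 1)

/-- `L (primeSign, z)`, as continued by the series of the partial sums. -/
def signCont (z : ℂ) : ℂ := z * countSeries z - countDefect z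

/-- The weighted difference. -/
def weightedRace (n : ℕ) : ℝ := countRace n * Real.log n

theorem abs_primeSign_le (n : ℕ) : |primeSign n| ≤ 1 := by
  rw [primeSign]
  split_ifs
  · rw [abs_neg]
    exact abs_chi_le n
  · simp

theorem summatory_primeSign (n : ℕ) :
    FA.OneSided.summatory (fun n => (primeSign n : ℂ)) n = (countRace n : ℂ) := by
  rw [FA.OneSided.summatory, countRace, ofReal_sum]

theorem norm_summatory_primeSign_le (n : ℕ) (_ : 0 < n) :
    ‖FA.OneSided.summatory (fun n => (primeSign n : ℂ)) n‖ ≤ 1 * (n : ℝ) ^ (1 : ℝ) := by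
  rw [summatory_primeSign, Complex.norm_real, Real.norm_eq_abs, Real.rpow_one, one_mul, countRace]
  refine (Finset.abs_sum_le_sum_abs _ _).trans ((Finset.sum_le_sum fun k _ => abs_primeSign_le k
    ).trans (le_of_eq (by simp)))

theorem differentiableAt_countDefect {z : ℂ} (hz : 0 < z.re) :
    DifferentiableAt ℂ countDefect z :=
  (FA.OneSided.differentiableOn_defect norm_summatory_primeSign_le zero_le_one).differentiableAt
    ((isOpen_lt continuous_const continuous_re).mem_nhds (show (1 : ℝ) - 1 < z.re by linarith))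

theorem summable_primeSign {z : ℂ} (hz : 1 < z.re) :
    LSeriesSummable (fun n => (primeSign n : ℂ)) z :=
  LSeriesSummable_of_bounded_of_one_lt_re (m := 1) (fun n _ => by
    rw [Complex.norm_real, Real.norm_eq_abs]; exact abs_primeSign_le n) hz

theorem term_countRace {w : ℂ} (hw : w ≠ 0) (n : ℕ) :
    LSeries.term (fun n => (countRace n : ℂ)) w n = (countRace n : ℂ) * (n : ℂ) ^ (-w) := by
  rcases Nat.eq_zero_or_pos n with rfl | hn
  · simp [Complex.zero_cpow (neg_ne_zero.2 hw)]
  · rw [LSeries.term_of_ne_zero hn.ne', Complex.cpow_neg, div_eq_mul_inv]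

theorem summable_countRace {w : ℂ} (hw : 2 < w.re) :
    LSeriesSummable (fun n => (countRace n : ℂ)) w :=
  LSeriesSummable_of_le_const_mul_rpow (x := 2) hw ⟨1, fun n hn => by
    have h := norm_summatory_primeSign_le n (Nat.pos_of_ne_zero hn)
    rw [summatory_primeSign] at h
    rw [show (2 : ℝ) - 1 = 1 by norm_num]
    exact h⟩

theorem countSeries_eq {z : ℂ} (hz : 1 < z.re) :
    countSeries z = (LSeries (fun n => (primeSign n : ℂ)) z + countDefect z) / z := by
  have h := FA.OneSided.hasSum_summatory norm_summatory_primeSign_le zero_le_one le_rfl hz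
    (summable_primeSign hz)
  simp only [summatory_primeSign] at h
  have hw : z + 1 ≠ 0 := fun h => by
    have := congrArg Complex.re h
    simp at this
    linarith
  exact (h.congr_fun fun n => term_countRace hw n).tsum_eq

theorem signCont_eq {z : ℂ} (hz : 1 < z.re) :
    signCont z = LSeries (fun n => (primeSign n : ℂ)) z := by
  have hz0 : z ≠ 0 := fun h => by simp [h] at hz; linarith
  rw [signCont, countSeries_eq hz, mul_div_cancel₀ _ hz0]
  ring

theorem logMul_countRace :
    LSeries.logMul (fun n => (countRace n : ℂ)) = fun n => (weightedRace n : ℂ) := by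
  funext n
  rw [LSeries.logMul, weightedRace, ← Complex.natCast_log]
  push_cast
  ring

theorem logMul_primeSign :
    LSeries.logMul (fun n => (primeSign n : ℂ)) = fun n => (raceLog n : ℂ) := by
  funext n
  rw [LSeries.logMul, raceLog, primeSign, ← Complex.natCast_log]
  split_ifs <;> (push_cast; ring)

theorem deriv_signCont {z : ℂ} (hz : 1 < z.re) :
    deriv signCont z = -(raceReg z + (2 * z - 1)⁻¹) := by
  have hev : signCont =ᶠ[𝓝 z] LSeries fun n => (primeSign n : ℂ) := by
    filter_upwards [(isOpen_lt continuous_const continuous_re).mem_nhds hz] with w hw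
    exact signCont_eq hw
  rw [hev.deriv_eq, LSeries_deriv ((LSeries.abscissaOfAbsConv_le_of_forall_lt_LSeriesSummable
    (x := 1) fun y hy => summable_primeSign (by simpa using hy)).trans_lt
      (EReal.coe_lt_coe_iff.2 hz)), logMul_primeSign, (lSeriesHasSum_raceLog hz).LSeries_eq]

variable {c : ℝ} {N : ℕ}

/-- What the convergence of the tail gives on a half plane. -/
theorem of_summable_tail {v : ℝ} (hv : 1 / 2 ≤ v)
    (hsum : ∀ z : ℂ, v < z.re → LSeriesSummable (gapTail weightedRace c N) (z + 1)) {z : ℂ}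
    (hz : v < z.re) :
    DifferentiableAt ℂ countSeries z ∧ DifferentiableAt ℂ signCont z ∧
      LSeries (gapTail weightedRace c N) (z + 1) =
        (c : ℂ) * riemannZeta (z + 1 / 2) + deriv countSeries z - gapHead weightedRace c N z := by
  have hd : ∀ w : ℂ, v + 1 < w.re → LSeriesSummable (fun n => (countRace n : ℂ)) w := by
    intro w hw
    have hz' : 1 / 2 < (w - 1).re := by simp; linarith
    have h := summable_of_gapTail hz' (hsum (w - 1) (by simp; linarith))
    rw [sub_add_cancel] at h
    have hw0 : w ≠ 0 := fun h0 => by simp [h0] at hw; linarith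
    refine Summable.of_norm_bounded_eventually (g := fun n =>
      ‖(weightedRace n : ℂ) * (n : ℂ) ^ (-w)‖ / Real.log 2) (h.norm.div_const _) ?_
    rw [Nat.cofinite_eq_atTop]
    filter_upwards [eventually_ge_atTop 2] with n hn
    have hl2 := Real.log_pos one_lt_two
    have hln : Real.log 2 ≤ Real.log n := Real.log_le_log two_pos (by exact_mod_cast hn)
    rw [term_countRace hw0, norm_mul, norm_mul, le_div_iff₀ hl2, mul_right_comm]
    refine mul_le_mul_of_nonneg_right ?_ (norm_nonneg _)
    rw [Complex.norm_real, Complex.norm_real, weightedRace, norm_mul, Real.norm_eq_abs (Real.log _),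
      abs_of_nonneg (Real.log_natCast_nonneg n)]
    exact mul_le_mul_of_nonneg_left hln (norm_nonneg _)
  have hre : v + 1 < (z + 1).re := by simp; linarith
  have habs : LSeries.abscissaOfAbsConv (fun n => (countRace n : ℂ)) < (z + 1).re :=
    (LSeries.abscissaOfAbsConv_le_of_forall_lt_LSeriesSummable (x := v + 1) fun y hy =>
      hd y (by simpa using hy)).trans_lt (EReal.coe_lt_coe_iff.2 hre)
  have hder : HasDerivAt countSeries
      (-LSeries (fun n => (weightedRace n : ℂ)) (z + 1)) z := by
    have h := LSeries_hasDerivAt habs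
    rw [logMul_countRace] at h
    exact h.comp_add_const z 1
  refine ⟨hder.differentiableAt, (differentiableAt_id.mul hder.differentiableAt).sub
    (differentiableAt_countDefect (by linarith)), ?_⟩
  have hs := summable_of_gapTail (z := z) (by linarith) (hsum z hz)
  have hw0 : z + 1 ≠ 0 := fun h0 => by rw [h0] at hre; simp at hre; linarith
  have hF : LSeries (fun n => (weightedRace n : ℂ)) (z + 1) =
      ∑' n : ℕ, (weightedRace n : ℂ) * (n : ℂ) ^ (-(z + 1)) := tsum_congr fun n => by
    rcases Nat.eq_zero_or_pos n with rfl | hn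
    · rw [LSeries.term_zero, Nat.cast_zero (R := ℂ), Complex.zero_cpow (neg_ne_zero.2 hw0),
        mul_zero]
    · rw [LSeries.term_of_ne_zero hn.ne', Complex.cpow_neg (n : ℂ) (z + 1), div_eq_mul_inv]
  rw [(lSeriesHasSum_gapTail (by linarith) hs.hasSum).LSeries_eq, hder.deriv, hF]
  ring

/-- The identity for the derivative, cleared of its poles. -/
theorem deriv_signCont_cleared {v : ℝ} (hv : 1 / 2 ≤ v)
    (hsum : ∀ z : ℂ, v < z.re → LSeriesSummable (gapTail weightedRace c N) (z + 1)) {z : ℂ}
    (hz : v < z.re) :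
    lChi z * deriv signCont z = -(deriv lChi z + lChi z * (squareReg z + (2 * z - 1)⁻¹)) := by
  obtain ⟨U, hU⟩ : ∃ U : Set ℂ, U = {w | v < w.re} := ⟨_, rfl⟩
  have hUo : IsOpen U := hU ▸ isOpen_lt continuous_const continuous_re
  have hmem : ∀ {w}, w ∈ U → v < w.re := fun {w} hw => by rwa [hU] at hw
  have hD : DifferentiableOn ℂ (deriv signCont) U := DifferentiableOn.deriv
    (fun w hw => (of_summable_tail hv hsum (hmem hw)).2.1.differentiableWithinAt) hUo
  obtain ⟨u, hu, hu1⟩ : ∃ u : ℂ, u ∈ U ∧ 1 < u.re :=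
    ⟨((max v 1 + 1 : ℝ) : ℂ), by rw [hU]; show v < _; simp; linarith [le_max_left v 1],
      by simp⟩
  refine AnalyticOnNhd.eqOn_of_preconnected_of_eventuallyEq
    (f := fun w => lChi w * deriv signCont w)
    (g := fun w => -(deriv lChi w + lChi w * (squareReg w + (2 * w - 1)⁻¹)))
    ((differentiable_lChi.differentiableOn.mul hD).analyticOnNhd hUo)
    (DifferentiableOn.analyticOnNhd (fun w hw => DifferentiableAt.differentiableWithinAt ?_) hUo)
    (hU ▸ (convex_halfSpace_re_gt v).isPreconnected) hu ?_ (show z ∈ U from hU ▸ hz)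
  · have hw' := hmem hw
    exact ((differentiable_lChi.deriv w).add ((differentiable_lChi w).mul
      ((differentiableAt_squareReg (by linarith) (zeta₁_two_mul_ne_zero (by linarith))).add
        (((differentiableAt_id.const_mul 2).sub_const 1).inv
          (two_mul_sub_ne_zero (by linarith)))))).neg
  · filter_upwards [(isOpen_lt continuous_const continuous_re).mem_nhds hu1] with w (hw : 1 < w.re)
    have hL := lChi_ne_zero_of_one_le_re hw.le
    rw [deriv_signCont hw, raceReg]
    generalize (2 * w - 1)⁻¹ = X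
    field_simp
    ring

/-- **Phragmén's theorem.** -/
theorem frequently_countRace_gt (hc : c < 1) :
    ∃ᶠ n : ℕ in atTop, c * Real.sqrt n / Real.log n < countRace n := by
  intro h
  simp only [not_lt] at h
  obtain ⟨N, hN⟩ : ∃ N : ℕ, ∀ n, N ≤ n → weightedRace n ≤ c * (n : ℝ) ^ (1 / 2 : ℝ) := by
    obtain ⟨M, hM⟩ := eventually_atTop.1 h
    refine ⟨max M 2, fun n hn => ?_⟩
    have hl : 0 < Real.log n :=
      Real.log_pos (Nat.one_lt_cast.2 (by omega))
    rw [weightedRace, ← Real.sqrt_eq_rpow, ← le_div_iff₀ hl]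
    exact hM n (by omega)
  obtain ⟨b, hb⟩ : ∃ b, b = gapTail weightedRace c N := ⟨_, rfl⟩
  have hb0 : 0 ≤ b := hb ▸ gapTail_nonneg hN
  have hsum₀ : ∀ w : ℂ, 3 < w.re → LSeriesSummable b w := by
    intro w hw
    have hz : 1 / 2 < (w - 1).re := by simp; linarith
    have hs : Summable fun n : ℕ => (weightedRace n : ℂ) * (n : ℂ) ^ (-((w - 1) + 1)) := by
      refine Summable.of_norm_bounded
        (Real.summable_nat_rpow.2 (show 2 - w.re < -1 by linarith)) fun n => ?_
      rw [sub_add_cancel]
      rcases Nat.eq_zero_or_pos n with rfl | hn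
      · simp [weightedRace, Real.zero_rpow (show (2 : ℝ) - w.re ≠ 0 by linarith)]
      have hn0 : (0 : ℝ) < n := Nat.cast_pos.2 hn
      have hr := norm_summatory_primeSign_le n hn
      rw [summatory_primeSign, one_mul, Real.rpow_one, Complex.norm_real] at hr
      rw [norm_mul, norm_natCast_cpow_of_pos hn, neg_re, Complex.norm_real, weightedRace, norm_mul,
        Real.norm_eq_abs (Real.log _), abs_of_nonneg (Real.log_natCast_nonneg n), sub_eq_add_neg,
        Real.rpow_add hn0, Real.rpow_two, pow_two]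
      refine mul_le_mul_of_nonneg_right (mul_le_mul hr ?_ (Real.log_natCast_nonneg n) hn0.le)
        (by positivity)
      linarith [Real.log_le_sub_one_of_pos hn0]
    have := (lSeriesHasSum_gapTail (C := c) (N := N) hz hs.hasSum).LSeriesSummable
    rwa [sub_add_cancel, ← hb] at this
  have hstep : ∀ w : ℂ, (3 / 2 : ℝ) < w.re → LSeriesSummable b w := by
    intro w hw
    refine summable_of_continuation hb0 hsum₀ (fun v hv hs => ?_) hw
    obtain ⟨u, hu⟩ : ∃ u, u = v - 1 := ⟨_, rfl⟩
    have hu2 : 1 / 2 < u := by linarith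
    have hs' : ∀ z : ℂ, u < z.re → LSeriesSummable (gapTail weightedRace c N) (z + 1) :=
      fun z hz => hb ▸ hs (z + 1) (by simp; linarith)
    obtain ⟨r₀, hr₀, hreg⟩ := Metric.eventually_nhds_iff.1 (eventually_regular hu2.le)
    obtain ⟨r, hr⟩ : ∃ r, r = min r₀ (u - 1 / 2) := ⟨_, rfl⟩
    have hr0 : 0 < r := hr ▸ lt_min hr₀ (by linarith)
    have hB : ∀ z ∈ Metric.ball (u : ℂ) r, 1 / 2 < z.re ∧ lChi z ≠ 0 := fun z hz => by
      rw [Metric.mem_ball] at hz
      refine ⟨?_, (hreg (hz.trans_le (hr ▸ min_le_left _ _))).1⟩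
      rw [dist_eq] at hz
      have h1 := abs_lt.1 ((abs_re_le_norm (z - u)).trans_lt hz)
      simp only [sub_re, ofReal_re] at h1
      linarith [hr ▸ min_le_right r₀ (u - 1 / 2)]
    have hG : DifferentiableOn ℂ (fun z => -(raceReg z + (2 * z - 1)⁻¹))
        (Metric.ball (u : ℂ) r) := fun z hz => by
      obtain ⟨h1, h2⟩ := hB z hz
      exact ((differentiableAt_raceReg (by linarith) (zeta₁_two_mul_ne_zero h1.le) h2).add
        (((differentiableAt_id.const_mul 2).sub_const 1).inv
          (two_mul_sub_ne_zero h1))).neg.differentiableWithinAt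
    obtain ⟨g, hg⟩ := hG.isExactOn_ball
    obtain ⟨V, hV⟩ : ∃ V : Set ℂ, V = Metric.ball (u : ℂ) r ∩ {z | u < z.re} := ⟨_, rfl⟩
    have hVo : IsOpen V :=
      hV ▸ Metric.isOpen_ball.inter (isOpen_lt continuous_const continuous_re)
    have hdS : ∀ z ∈ V, DifferentiableAt ℂ signCont z ∧
        deriv signCont z = -(raceReg z + (2 * z - 1)⁻¹) := fun z hz => by
      rw [hV] at hz
      have hL := (hB z hz.1).2
      refine ⟨(of_summable_tail hu2.le hs' hz.2).2.1, mul_left_cancel₀ hL ?_⟩
      rw [deriv_signCont_cleared hu2.le hs' hz.2, raceReg]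
      generalize (2 * z - 1)⁻¹ = X
      field_simp
      ring
    obtain ⟨k, hk⟩ := hVo.exists_is_const_of_deriv_eq_zero
      (hV ▸ ((convex_ball _ _).inter (convex_halfSpace_re_gt u)).isPreconnected)
      (f := fun z => g z - signCont z)
      (fun z hz => ((hg z (hV ▸ hz).1).differentiableAt.sub (hdS z hz).1).differentiableWithinAt)
      (fun z hz => by
        simp only [Pi.zero_apply]
        rw [deriv_fun_sub (hg z (hV ▸ hz).1).differentiableAt (hdS z hz).1,
          (hg z (hV ▸ hz).1).deriv, (hdS z hz).2, sub_self])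
    obtain ⟨Φ₀, hΦ₀⟩ : ∃ Φ₀ : ℂ → ℂ, Φ₀ = fun z => (g z - k + countDefect z) / z := ⟨_, rfl⟩
    have hΦ₀d : DifferentiableOn ℂ Φ₀ (Metric.ball (u : ℂ) r) := fun z hz => by
      have h1 := (hB z hz).1
      rw [hΦ₀]
      exact ((((hg z hz).differentiableAt.sub_const k).add
        (differentiableAt_countDefect (by linarith))).div differentiableAt_id
          fun h0 => by simp [show z = 0 from h0] at h1; linarith).differentiableWithinAt
    have heq : ∀ z ∈ V, countSeries z = Φ₀ z := fun z hz => by
      have h2 := hk z hz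
      simp only [signCont] at h2
      have hz0 : z ≠ 0 := fun h0 => by
        have := (hV ▸ hz).2
        simp [h0] at this
        linarith
      rw [hΦ₀]
      simp only
      rw [eq_div_iff hz0]
      linear_combination -h2
    obtain ⟨Ψ, hΨ⟩ : ∃ Ψ : ℂ → ℂ, Ψ = fun z =>
        (c : ℂ) * riemannZeta (z + 1 / 2) + deriv Φ₀ z - gapHead weightedRace c N z := ⟨_, rfl⟩
    have hsub : ∀ x ∈ Metric.ball (v : ℂ) r, x - 1 ∈ Metric.ball (u : ℂ) r := fun x hx => by
      rw [Metric.mem_ball, dist_eq] at hx ⊢
      rwa [hu, show x - 1 - ((v - 1 : ℝ) : ℂ) = x - v by push_cast; ring]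
    refine ⟨r, hr0, fun x => Ψ (x - 1), fun x hx => ?_, fun x hx => ?_⟩
    · obtain ⟨h1, -⟩ := hB _ (hsub x hx)
      have hne : x - 1 + 1 / 2 ≠ 1 := fun h0 => by
        have := congrArg Complex.re h0
        simp at this h1
        linarith
      refine DifferentiableAt.differentiableWithinAt (DifferentiableAt.fun_comp' x (g := Ψ) ?_
        (by fun_prop))
      rw [hΨ]
      have d1 : DifferentiableAt ℂ (fun z : ℂ => riemannZeta (z + 1 / 2)) (x - 1) :=
        DifferentiableAt.fun_comp' (x - 1) (g := riemannZeta) (differentiableAt_riemannZeta hne)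
          (by fun_prop)
      have d2 : DifferentiableAt ℂ (deriv Φ₀) (x - 1) :=
        (hΦ₀d.deriv Metric.isOpen_ball).differentiableAt
          (Metric.isOpen_ball.mem_nhds (hsub x hx))
      exact ((d1.const_mul _).add d2).sub (differentiable_gapHead _)
    · have hxu : u < (x - 1).re := by
        have := hx.2
        simp at this ⊢
        linarith
      have hmem : x - 1 ∈ V := hV ▸ ⟨hsub x hx.1, hxu⟩
      have hd : deriv countSeries (x - 1) = deriv Φ₀ (x - 1) :=
        (Filter.eventuallyEq_of_mem (hVo.mem_nhds hmem) heq).deriv_eq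
      have h3 := (of_summable_tail hu2.le hs' hxu).2.2
      rw [sub_add_cancel, ← hb, hd] at h3
      rw [hΨ]
      exact h3.symm
  have hs' : ∀ z : ℂ, (1 / 2 : ℝ) < z.re → LSeriesSummable (gapTail weightedRace c N) (z + 1) :=
    fun z hz => hb ▸ hstep (z + 1) (by simp; linarith)
  obtain ⟨r₀, hr₀, hreg⟩ := Metric.eventually_nhds_iff.1 (eventually_regular (v := 1 / 2) le_rfl)
  obtain ⟨r, hr⟩ : ∃ r, r = min r₀ (1 / 12 : ℝ) := ⟨_, rfl⟩
  have hr0 : 0 < r := hr ▸ lt_min hr₀ (by norm_num)
  have hB : ∀ z ∈ Metric.ball ((1 / 2 : ℝ) : ℂ) r,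
      1 / 3 < z.re ∧ lChi z ≠ 0 ∧ riemannZeta₁ (2 * z) ≠ 0 := fun z hz => by
    rw [Metric.mem_ball] at hz
    refine ⟨?_, hreg (hz.trans_le (hr ▸ min_le_left _ _))⟩
    rw [dist_eq] at hz
    have h1 := abs_lt.1 ((abs_re_le_norm (z - ((1 / 2 : ℝ) : ℂ))).trans_lt hz)
    simp only [sub_re, ofReal_re] at h1
    linarith [hr ▸ min_le_right r₀ (1 / 12 : ℝ)]
  have hG : DifferentiableOn ℂ (fun z => -raceReg z) (Metric.ball ((1 / 2 : ℝ) : ℂ) r) :=
    fun z hz => ((differentiableAt_raceReg (hB z hz).1 (hB z hz).2.2 (hB z hz).2.1).neg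
      ).differentiableWithinAt
  obtain ⟨g, hg⟩ := hG.isExactOn_ball
  obtain ⟨V, hV⟩ : ∃ V : Set ℂ,
      V = Metric.ball ((1 / 2 : ℝ) : ℂ) r ∩ {z | (1 / 2 : ℝ) < z.re} := ⟨_, rfl⟩
  have hVo : IsOpen V := hV ▸ Metric.isOpen_ball.inter (isOpen_lt continuous_const continuous_re)
  have hdS : ∀ z ∈ V, DifferentiableAt ℂ signCont z ∧
      deriv signCont z = -(raceReg z + (2 * z - 1)⁻¹) := fun z hz => by
    rw [hV] at hz
    have hL := (hB z hz.1).2.1
    refine ⟨(of_summable_tail le_rfl hs' hz.2).2.1, mul_left_cancel₀ hL ?_⟩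
    rw [deriv_signCont_cleared le_rfl hs' hz.2, raceReg]
    generalize (2 * z - 1)⁻¹ = X
    field_simp
    ring
  have hslit : ∀ z ∈ V, z - 1 / 2 ∈ slitPlane := fun z hz => by
    rw [hV] at hz
    left
    have : (1 / 2 : ℝ) < z.re := hz.2
    simp
    linarith
  obtain ⟨k, hk⟩ := hVo.exists_is_const_of_deriv_eq_zero
    (hV ▸ ((convex_ball _ _).inter (convex_halfSpace_re_gt (1 / 2 : ℝ))).isPreconnected)
    (f := fun z => signCont z + 1 / 2 * Complex.log (z - 1 / 2) - g z)
    (fun z hz => (((hdS z hz).1.add (((((hasDerivAt_id z).sub_const (1 / 2)).clog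
      (hslit z hz)).const_mul (1 / 2)).differentiableAt)).sub
        (hg z (hV ▸ hz).1).differentiableAt).differentiableWithinAt)
    (fun z hz => by
      have h1 := ((hasDerivAt_id z).sub_const (1 / 2)).clog (hslit z hz)
      have h2 := ((hdS z hz).1.hasDerivAt.add (h1.const_mul (1 / 2))).sub (hg z (hV ▸ hz).1)
      rw [Pi.zero_apply]
      refine h2.deriv.trans ?_
      rw [(hdS z hz).2]
      have : 2 * z - 1 = 2 * (z - 1 / 2) := by ring
      rw [this, mul_inv]
      simp only [id_eq]
      ring)
  have hre : Tendsto (fun t : ℝ => ((t - 1 / 2 : ℝ) : ℂ) * LSeries b ((t : ℂ) + 1))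
      (𝓝[>] (1 / 2)) (𝓝 ((c : ℂ) - 1)) := by
    obtain ⟨K, hK⟩ : ∃ K : ℂ → ℂ → ℂ, K = fun z l => (c : ℂ) * riemannZeta₁ (z + 1 / 2) +
        ((-((z - 1 / 2) * raceReg z) - 1 / 2 + (z - 1 / 2) * deriv countDefect z) / z -
          ((z - 1 / 2) * (g z + k + countDefect z) - 1 / 2 * l) / z ^ 2) -
        (z - 1 / 2) * gapHead weightedRace c N z := ⟨_, rfl⟩
    have hl : Tendsto (fun t : ℝ => (((t - 1 / 2) * Real.log (t - 1 / 2) : ℝ) : ℂ))
        (𝓝[>] (1 / 2)) (𝓝 0) := by
      have hc : Continuous fun t : ℝ => (((t - 1 / 2) * Real.log (t - 1 / 2) : ℝ) : ℂ) :=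
        Complex.continuous_ofReal.comp
          (Real.continuous_mul_log.comp (continuous_id.sub continuous_const))
      simpa using (hc.tendsto (1 / 2)).mono_left nhdsWithin_le_nhds
    have hmem : ((1 / 2 : ℝ) : ℂ) ∈ Metric.ball ((1 / 2 : ℝ) : ℂ) r := Metric.mem_ball_self hr0
    have hKc : ContinuousAt (fun p : ℂ × ℂ => K p.1 p.2) (((1 / 2 : ℝ) : ℂ), 0) := by
      obtain ⟨h13, hL, hz2⟩ := hB _ hmem
      have c1 : ContinuousAt raceReg ((1 / 2 : ℝ) : ℂ) :=
        (differentiableAt_raceReg h13 hz2 hL).continuousAt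
      have c2 : ContinuousAt (deriv countDefect) ((1 / 2 : ℝ) : ℂ) :=
        (((DifferentiableOn.deriv (fun z (hz : z ∈ {z : ℂ | 0 < z.re}) =>
          (differentiableAt_countDefect hz).differentiableWithinAt)
          (isOpen_lt continuous_const continuous_re))).differentiableAt
            ((isOpen_lt continuous_const continuous_re).mem_nhds
              (show (0 : ℝ) < (((1 / 2 : ℝ) : ℂ)).re by simp))).continuousAt
      have c3 : ContinuousAt countDefect ((1 / 2 : ℝ) : ℂ) :=
        (differentiableAt_countDefect (by simp)).continuousAt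
      have c4 : ContinuousAt g ((1 / 2 : ℝ) : ℂ) := (hg _ hmem).continuousAt
      have c5 : Continuous (gapHead weightedRace c N) := differentiable_gapHead.continuous
      have c6 : Continuous fun z => riemannZeta₁ (z + 1 / 2) :=
        differentiable_riemannZeta₁.continuous.comp (continuous_id.add continuous_const)
      have hf : ∀ {f : ℂ → ℂ}, ContinuousAt f ((1 / 2 : ℝ) : ℂ) →
          ContinuousAt (fun p : ℂ × ℂ => f p.1) (((1 / 2 : ℝ) : ℂ), 0) := fun {f} hf =>
        ContinuousAt.comp' (g := f) hf continuousAt_fst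
      rw [hK]
      exact (((hf c6.continuousAt).const_mul _).add ((((((continuousAt_fst.sub continuousAt_const
        ).mul (hf c1)).neg.sub continuousAt_const).add ((continuousAt_fst.sub continuousAt_const
        ).mul (hf c2))).div continuousAt_fst (by simp)).sub
        ((((continuousAt_fst.sub continuousAt_const).mul (((hf c4).add continuousAt_const).add
          (hf c3))).sub (continuousAt_const.mul continuousAt_snd)).div (continuousAt_fst.pow 2)
            (by simp)))).sub ((continuousAt_fst.sub continuousAt_const).mul (hf c5.continuousAt))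
    have hK0 : K ((1 / 2 : ℝ) : ℂ) 0 = (c : ℂ) - 1 := by
      rw [hK]
      push_cast
      rw [show (1 / 2 : ℂ) + 1 / 2 = 1 by norm_num, riemannZeta₁_one, sub_self]
      norm_num
      ring
    rw [← hK0]
    refine (hKc.tendsto.comp (((Complex.continuous_ofReal.tendsto (1 / 2)).mono_left
      nhdsWithin_le_nhds).prodMk_nhds hl)).congr' ?_
    filter_upwards [Ioo_mem_nhdsGT (show (1 / 2 : ℝ) < 1 / 2 + r by linarith)] with t ht
    have htV : (t : ℂ) ∈ V := hV ▸ ⟨by
      rw [Metric.mem_ball, dist_eq, ← ofReal_sub, Complex.norm_real, Real.norm_of_nonneg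
        (by linarith [ht.1])]
      linarith [ht.2], show (1 / 2 : ℝ) < (t : ℂ).re by simpa using ht.1⟩
    obtain ⟨hdc, -, h3⟩ := of_summable_tail le_rfl hs'
      (show (1 / 2 : ℝ) < (t : ℂ).re by simpa using ht.1)
    have ht0 : (t : ℂ) ≠ 0 := ofReal_ne_zero.2 (by linarith [ht.1])
    have hd : (t : ℂ) - 1 / 2 ≠ 0 := fun h0 => by
      have := congrArg Complex.re h0
      simp at this
      linarith [ht.1]
    have hcd := (differentiableAt_countDefect (z := (t : ℂ)) (by simp; linarith [ht.1])).hasDerivAt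
    have hder : deriv countSeries (t : ℂ) = (deriv signCont (t : ℂ) + deriv countDefect t) / t -
        (signCont (t : ℂ) + countDefect t) / (t : ℂ) ^ 2 := by
      have hev : countSeries =ᶠ[𝓝 (t : ℂ)] fun z => (signCont z + countDefect z) / z := by
        filter_upwards [eventually_ne_nhds ht0] with z hz
        rw [signCont, sub_add_cancel, mul_div_cancel_left₀ _ hz]
      rw [hev.deriv_eq, (((hdS _ htV).1.hasDerivAt.fun_add hcd).fun_div (hasDerivAt_id' _)
        ht0).deriv]
      field_simp
    have hval : signCont (t : ℂ) = g t + k - 1 / 2 * (Real.log (t - 1 / 2) : ℂ) := by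
      have h4 := hk _ htV
      rw [ofReal_log (by linarith [ht.1])]
      push_cast
      linear_combination h4
    rw [← hb] at h3
    rw [h3, hder, (hdS _ htV).2, hval, riemannZeta_eq_inv_sub_mul (fun h0 => hd (by
      linear_combination h0))]
    simp only [Function.comp_apply, hK]
    push_cast
    rw [show (t : ℂ) + 1 / 2 - 1 = (t : ℂ) - 1 / 2 by ring,
      show 2 * (t : ℂ) - 1 = 2 * ((t : ℂ) - 1 / 2) by ring]
    generalize (t : ℂ) - 1 / 2 = d at hd ⊢
    field_simp
    ring
  have := zero_le_of_tendsto hb0 hre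
  simp at this
  linarith

end FA.PrimeRace

end
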