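import Fermat.Agent.OneSided.Landau
import Mathlib.Analysis.SpecialFunctions.Pow.Continuity

/-!
# Landau's argument with the square root as the bound

A series with nonnegative coefficients converges as far left as it continues along the real axis.
For `b n = C √n - D n` beyond `N` a limit of `(t - 1/2) ∑ b n n ^ (-(t + 1))` is nonnegative.
-/

set_option autoImplicit false

noncomputable section

namespace FA.PrimeRace

open Complex Filter Topology Set
open scoped ComplexOrder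

/-- **Landau's theorem**, the continuation given near each real point. -/
theorem summable_of_continuation {b : ℕ → ℂ} (hb : 0 ≤ b) {x₀ α : ℝ}
    (hsum₀ : ∀ w : ℂ, x₀ < w.re → LSeriesSummable b w)
    (hcont : ∀ v : ℝ, α < v → (∀ w : ℂ, v < w.re → LSeriesSummable b w) →
      ∃ r : ℝ, 0 < r ∧ ∃ Φ : ℂ → ℂ, DifferentiableOn ℂ Φ (Metric.ball (v : ℂ) r) ∧
        EqOn Φ (LSeries b) (Metric.ball (v : ℂ) r ∩ {w | v < w.re}))
    {w : ℂ} (hw : α < w.re) : LSeriesSummable b w := by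
  set S : Set ℝ := {x | α < x ∧ LSeriesSummable b (x : ℂ)} with hS
  have h2 : max x₀ α + 1 ∈ S :=
    ⟨by linarith [le_max_right x₀ α], hsum₀ _ (by simp; linarith [le_max_left x₀ α])⟩
  have hbdd : BddBelow S := ⟨α, fun x hx => hx.1.le⟩
  set v := sInf S with hv
  have hαv : α ≤ v := le_csInf ⟨_, h2⟩ fun x hx => hx.1.le
  have hsum : ∀ z : ℂ, v < z.re → LSeriesSummable b z := fun z hz => by
    obtain ⟨x, hx, hxz⟩ := exists_lt_of_csInf_lt ⟨_, h2⟩ hz
    exact hx.2.of_re_le_re (by simpa using hxz.le)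
  rcases eq_or_lt_of_le hαv with heq | hlt
  · exact hsum w (heq ▸ hw)
  exfalso
  obtain ⟨r₀, hr₀, Φ, hΦd, hΦeq⟩ := hcont v hlt hsum
  set r := min r₀ (v - α) with hr
  have hr0 : 0 < r := lt_min hr₀ (by linarith)
  classical
  set F : ℂ → ℂ := fun z => if v < z.re then LSeries b z else Φ z with hF
  have hin : ∀ z ∈ Metric.ball ((v + r / 4 : ℝ) : ℂ) (r / 2), z ∈ Metric.ball (v : ℂ) r₀ := by
    intro z hz
    rw [Metric.mem_ball, dist_eq] at hz ⊢
    calc ‖z - (v : ℂ)‖ = ‖(z - ((v + r / 4 : ℝ) : ℂ)) + ((r / 4 : ℝ) : ℂ)‖ := by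
          congr 1; push_cast; ring
      _ ≤ ‖z - ((v + r / 4 : ℝ) : ℂ)‖ + ‖((r / 4 : ℝ) : ℂ)‖ := norm_add_le _ _
      _ < r := by
          rw [Complex.norm_real, Real.norm_of_nonneg (by positivity)]
          linarith
      _ ≤ r₀ := min_le_left _ _
  have hFd : DifferentiableOn ℂ F (Metric.ball ((v + r / 4 : ℝ) : ℂ) (r / 2)) := by
    refine DifferentiableOn.congr (hΦd.mono hin) fun z hz => ?_
    simp only [hF]
    split_ifs with h
    · exact (hΦeq ⟨hin z hz, h⟩).symm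
    · rfl
  set x := v - r / 8 with hx
  have hpart := fun T => FA.Signs.sum_term_le (a := b) hb (x₀ := v) (c := v + r / 4) (r := r / 2)
    (by linarith) hsum hFd (fun z hz => if_pos hz) T (x := x) (by linarith) (by linarith)
  have hnn : ∀ n, 0 ≤ LSeries.term b (x : ℂ) n := fun n => LSeries.term_nonneg (hb n) x
  have hxS : x ∈ S := by
    refine ⟨by linarith [hr ▸ min_le_right r₀ (v - α)], ?_⟩
    have hs : Summable fun n => (LSeries.term b (x : ℂ) n).re := by
      refine summable_of_sum_le (fun n => (Complex.le_def.1 (hnn n)).1) (c := (F (x : ℂ)).re)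
        fun T => ?_
      rw [← Complex.re_sum]
      exact (Complex.le_def.1 (hpart T)).1
    refine (Complex.summable_ofReal.2 hs).congr fun n => ?_
    exact Complex.ext (by simp) (by simpa using (Complex.le_def.1 (hnn n)).2)
  have := csInf_le hbdd hxS
  linarith

/-- `C √n - D n`. -/
def gapCoeff (D : ℕ → ℝ) (C : ℝ) (n : ℕ) : ℂ := ((C * (n : ℝ) ^ (1 / 2 : ℝ) - D n : ℝ) : ℂ)

/-- The same from `N` on. -/
def gapTail (D : ℕ → ℝ) (C : ℝ) (N : ℕ) : ℕ → ℂ :=
  FA.Signs.removed (gapCoeff D C) (Finset.range N)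

/-- The removed terms. -/
def gapHead (D : ℕ → ℝ) (C : ℝ) (N : ℕ) (z : ℂ) : ℂ :=
  ∑ n ∈ Finset.range N, LSeries.term (gapCoeff D C) (z + 1) n

variable {D : ℕ → ℝ} {C : ℝ} {N : ℕ}

theorem differentiable_gapHead : Differentiable ℂ (gapHead D C N) := fun z =>
  DifferentiableAt.fun_sum fun n _ =>
    (DifferentiableAt.comp (f := fun w : ℂ => w + 1)
      (g := fun s => LSeries.term (gapCoeff D C) s n) z
      (FA.Signs.differentiable_term (gapCoeff D C) n (z + 1)) (by fun_prop) :)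

theorem gapTail_nonneg (h : ∀ n, N ≤ n → D n ≤ C * (n : ℝ) ^ (1 / 2 : ℝ)) :
    0 ≤ gapTail D C N := fun n => by
  simp only [gapTail, FA.Signs.removed, Pi.zero_apply]
  split_ifs with hn
  · exact le_rfl
  · rw [gapCoeff, Complex.zero_le_real]
    rw [Finset.mem_range, not_lt] at hn
    linarith [h n hn]

theorem term_gapCoeff {z : ℂ} (hz : 1 / 2 < z.re) (n : ℕ) :
    LSeries.term (gapCoeff D C) (z + 1) n =
      (C : ℂ) * LSeries.term 1 (z + 1 / 2) n - (D n : ℂ) * (n : ℂ) ^ (-(z + 1)) := by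
  rcases Nat.eq_zero_or_pos n with rfl | hn
  · have h0 : -(z + 1) ≠ 0 := fun h => by
      have := congrArg Complex.re h
      simp at this
      linarith
    rw [Nat.cast_zero, Complex.zero_cpow h0]
    simp
  have hn0 : (n : ℂ) ≠ 0 := Nat.cast_ne_zero.2 hn.ne'
  rw [LSeries.term_of_ne_zero hn.ne', LSeries.term_of_ne_zero hn.ne', Pi.one_apply, gapCoeff,
    Complex.ofReal_sub, Complex.ofReal_mul, ofReal_cpow (Nat.cast_nonneg n), ofReal_natCast,
    show ((1 / 2 : ℝ) : ℂ) = 1 / 2 by push_cast; rfl, Complex.cpow_neg,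
    show z + 1 = z + 1 / 2 + 1 / 2 by ring, Complex.cpow_add (z + 1 / 2) _ hn0]
  obtain ⟨A, hA⟩ : ∃ A : ℂ, A = (n : ℂ) ^ (z + 1 / 2) := ⟨_, rfl⟩
  obtain ⟨B, hB⟩ : ∃ B : ℂ, B = (n : ℂ) ^ (1 / 2 : ℂ) := ⟨_, rfl⟩
  have hA0 : A ≠ 0 := hA ▸ (by simp [cpow_eq_zero_iff, hn0])
  have hB0 : B ≠ 0 := hB ▸ (by simp [cpow_eq_zero_iff, hn0])
  rw [← hA, ← hB]
  field_simp

/-- The series of the tail. -/
theorem lSeriesHasSum_gapTail {z F : ℂ} (hz : 1 / 2 < z.re)
    (h : HasSum (fun n : ℕ => (D n : ℂ) * (n : ℂ) ^ (-(z + 1))) F) :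
    LSeriesHasSum (gapTail D C N) (z + 1)
      (C * riemannZeta (z + 1 / 2) - F - gapHead D C N z) := by
  have hre : 1 < (z + 1 / 2).re := by simp; linarith
  have hζ : HasSum (fun n : ℕ => LSeries.term 1 (z + 1 / 2) n) (riemannZeta (z + 1 / 2)) := by
    rw [← LSeries_one_eq_riemannZeta hre]
    exact (LSeriesSummable_one_iff.2 hre).LSeriesHasSum
  have hc : LSeriesHasSum (gapCoeff D C) (z + 1) (C * riemannZeta (z + 1 / 2) - F) :=
    ((hζ.mul_left (C : ℂ)).sub h).congr_fun fun n => term_gapCoeff hz n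
  have := FA.Signs.hasSum_removed (Finset.range N) hc.LSeriesSummable
  rwa [hc.LSeries_eq] at this

/-- Convergence of the tail gives that of the series of `D`. -/
theorem summable_of_gapTail {z : ℂ} (hz : 1 / 2 < z.re)
    (h : LSeriesSummable (gapTail D C N) (z + 1)) :
    Summable fun n : ℕ => (D n : ℂ) * (n : ℂ) ^ (-(z + 1)) := by
  have hre : 1 < (z + 1 / 2).re := by simp; linarith
  have h1 : Summable fun n => LSeries.term (gapCoeff D C) (z + 1) n := by
    refine (summable_congr_cofinite ?_).1 h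
    filter_upwards [(Finset.range N).finite_toSet.compl_mem_cofinite] with n hn
    rw [gapTail, FA.Signs.term_removed, if_neg (by simpa using hn)]
  refine (((LSeriesSummable_one_iff.2 hre).mul_left (C : ℂ)).sub h1).congr fun n => ?_
  rw [term_gapCoeff hz]
  ring

/-- **The limit at `1/2`.** -/
theorem zero_le_of_tendsto {b : ℕ → ℂ} (hb : 0 ≤ b) {l : ℂ}
    (h : Tendsto (fun t : ℝ => ((t - 1 / 2 : ℝ) : ℂ) * LSeries b ((t : ℂ) + 1))
      (𝓝[>] (1 / 2)) (𝓝 l)) : 0 ≤ l.re := by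
  refine ge_of_tendsto ((Complex.continuous_re.tendsto l).comp h) ?_
  filter_upwards [self_mem_nhdsWithin] with t (ht : 1 / 2 < t)
  simp only [Function.comp_apply, Complex.re_ofReal_mul]
  refine mul_nonneg (by linarith) ?_
  have h0 : (0 : ℂ) ≤ LSeries b ((t : ℂ) + 1) := by
    rw [show (t : ℂ) + 1 = ((t + 1 : ℝ) : ℂ) by push_cast; rfl]
    exact tsum_nonneg fun n => LSeries.term_nonneg (hb n) _
  exact (Complex.le_def.1 h0).1

end FA.PrimeRace

end
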