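import Fermat.Agent.PrimeRace.Char
import Fermat.Agent.LittlewoodOscillation.Abel

/-!
# The series of the primes with the signs of the race

With `a n = -χ n log n` on the primes, `L (a, z) = L'/L (z) + P z`, `P` the series of the proper
prime powers, and `P z - 1 / (2 z - 1)` continues to `re z > 1/3` off the zeros of `ζ (2 z)`: the
squares of the primes give the pole at `1/2`.
-/

set_option autoImplicit false

noncomputable section

namespace FA.PrimeRace

open Complex Filter Topology
open FA.OrderTheta (chiFourC)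
open FA.PrimeTwoSquares (chi chi_eq_ite abs_chi_le)
open FA.Littlewood (properPowers properPowers_nonneg)
open scoped ArithmeticFunction.vonMangoldt

/-- `-χ n log n` at the primes. -/
def raceLog (n : ℕ) : ℝ := if n.Prime then -chi n * Real.log n else 0

/-- `χ n (Λ n - [n prime] log n)`. -/
def powPart (n : ℕ) : ℝ := chi n * properPowers n

/-- `Λ` on the odd squares. -/
def sqPart (n : ℕ) : ℝ := if IsSquare n ∧ n % 2 = 1 then Λ n else 0

/-- The rest of `powPart`. -/
def cubePart (n : ℕ) : ℝ := powPart n - sqPart n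

/-- `Λ` on the even numbers. -/
def twoPart (n : ℕ) : ℝ := if n % 2 = 0 then Λ n else 0

/-- The part of the series of the proper powers regular at `1/2`. -/
def squareReg (z : ℂ) : ℂ :=
  LSeries (fun n => (cubePart n : ℂ)) z - LSeries (fun n => (twoPart n : ℂ)) (2 * z) -
    deriv riemannZeta₁ (2 * z) / riemannZeta₁ (2 * z)

/-- `L'/L + squareReg`. -/
def raceReg (z : ℂ) : ℂ := deriv lChi z / lChi z + squareReg z

theorem abs_cubePart_le {n : ℕ} (hn : cubePart n ≠ 0) :
    ∃ p j : ℕ, p.Prime ∧ n = p ^ (j + 3) ∧ |cubePart n| ≤ Real.log p := by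
  by_cases hpp : IsPrimePow n
  swap
  · exfalso
    have h0 : Λ n = 0 := ArithmeticFunction.vonMangoldt_eq_zero_iff.2 hpp
    have hnp : ¬ n.Prime := fun h => hpp h.isPrimePow
    exact hn (by simp [cubePart, powPart, properPowers, sqPart, h0, hnp])
  obtain ⟨p, k, hp, hk, rfl⟩ := (isPrimePow_nat_iff n).1 hpp
  have hΛ : Λ (p ^ k) = Real.log p := by
    rw [ArithmeticFunction.vonMangoldt_apply_pow hk.ne',
      ArithmeticFunction.vonMangoldt_apply_prime hp]
  have hk1 : k ≠ 1 := by
    rintro rfl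
    have hns : ¬ IsSquare (p ^ 1) := by
      rw [pow_one]
      exact hp.prime.not_isSquare
    have hp' : (p ^ 1).Prime := by rwa [pow_one]
    rw [cubePart, powPart, properPowers, sqPart, if_pos hp', hΛ,
      if_neg fun h => hns h.1] at hn
    exact hn (by simp)
  have hnp : ¬ (p ^ k).Prime := fun h => hk1 h.eq_one_of_pow
  by_cases hk2 : k = 2
  · subst hk2
    exfalso
    have hchi : chi (p ^ 2) = if p % 2 = 1 then 1 else 0 := by
      rw [pow_two, FA.PrimeTwoSquares.chi_mul, FA.PrimeTwoSquares.chi_sq]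
    have hodd : (p ^ 2) % 2 = p % 2 := by
      rw [Nat.pow_mod]
      rcases Nat.mod_two_eq_zero_or_one p with h | h <;> rw [h]
    refine hn ?_
    rw [cubePart, powPart, properPowers, sqPart, if_neg hnp, hΛ, hchi, hodd, sub_zero]
    by_cases h : p % 2 = 1
    · rw [if_pos h, if_pos ⟨⟨p, by ring⟩, h⟩, one_mul, sub_self]
    · rw [if_neg h, if_neg (fun hh => h hh.2), zero_mul, sub_self]
  refine ⟨p, k - 3, hp, by rw [Nat.sub_add_cancel (by omega)], ?_⟩
  rw [cubePart, powPart, properPowers, sqPart, if_neg hnp, hΛ, sub_zero]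
  have hl : 0 ≤ Real.log p := Real.log_natCast_nonneg p
  by_cases h : IsSquare (p ^ k) ∧ p ^ k % 2 = 1
  · rw [if_pos h]
    obtain ⟨m, hm⟩ := h.1
    have : chi (p ^ k) = 1 := by
      rw [hm, FA.PrimeTwoSquares.chi_mul, FA.PrimeTwoSquares.chi_sq, if_pos]
      have := hm ▸ h.2
      rcases Nat.mod_two_eq_zero_or_one m with hm2 | hm2
      · simp [Nat.mul_mod, hm2] at this
      · exact hm2
    rw [this, one_mul, sub_self, abs_zero]
    exact hl
  · rw [if_neg h, sub_zero, abs_mul, abs_of_nonneg hl]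
    exact mul_le_of_le_one_left hl (abs_chi_le _)

theorem summable_cubePart {z : ℂ} (hz : 1 / 3 < z.re) :
    LSeriesSummable (fun n => (cubePart n : ℂ)) z := by
  obtain ⟨σ, hσ⟩ : ∃ σ : ℝ, σ = z.re := ⟨_, rfl⟩
  have hσ0 : 0 < σ := by linarith
  obtain ⟨δ, hδ⟩ : ∃ δ, δ = (3 * σ - 1) / 2 := ⟨_, rfl⟩
  have hδ0 : 0 < δ := by linarith
  obtain ⟨u, hu⟩ : ∃ u : Nat.Primes → ℝ,
      u = fun p : Nat.Primes => ((p : ℕ) : ℝ) ^ (δ - 3 * σ) / δ := ⟨_, rfl⟩
  obtain ⟨g, hg⟩ : ∃ g : ℕ → ℝ, g = fun j => ((2 : ℝ) ^ (-σ)) ^ j := ⟨_, rfl⟩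
  have hu0 : ∀ p, 0 ≤ u p := fun p => by simp only [hu]; positivity
  have hg0 : ∀ j, 0 ≤ g j := fun j => by simp only [hg]; positivity
  have hus : Summable u := by
    simp only [hu]
    exact ((Real.summable_nat_rpow.2 (by linarith)).comp_injective
      Nat.Primes.coe_nat_injective).div_const δ
  have hgs : Summable g := hg ▸ summable_geometric_of_lt_one (by positivity)
    (Real.rpow_lt_one_of_one_lt_of_neg one_lt_two (by linarith))
  have hprod : Summable fun x : Nat.Primes × ℕ => u x.1 * g x.2 := hus.mul_of_nonneg hgs hu0 hg0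
  obtain ⟨f, hf⟩ : ∃ f : Nat.Primes × ℕ → ℕ, f = fun x => (x.1 : ℕ) ^ (x.2 + 3) := ⟨_, rfl⟩
  have hinj : Function.Injective f := by
    rintro ⟨p, i⟩ ⟨q, j⟩ h
    simp only [hf] at h
    obtain ⟨h1, h2⟩ := Nat.Prime.pow_inj (hp := p.2) (hq := q.2) (m := i + 2) (n := j + 2) h
    exact Prod.ext (Subtype.ext h1) (by omega)
  rw [LSeriesSummable]
  refine (hinj.summable_iff fun n hn => ?_).1 (Summable.of_norm_bounded hprod fun x => ?_)
  · rcases eq_or_ne n 0 with rfl | hn0
    · simp
    rw [LSeries.term_of_ne_zero hn0]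
    by_contra h
    obtain ⟨p, j, hp, he, -⟩ := abs_cubePart_le (n := n) fun h0 => h (by simp [h0])
    exact hn ⟨(⟨p, hp⟩, j), by simp [hf, he]⟩
  · obtain ⟨p, j⟩ := x
    have hp0 : 0 < (p : ℕ) := p.2.pos
    have hp1 : (1 : ℝ) ≤ ((p : ℕ) : ℝ) := Nat.one_le_cast.2 hp0
    simp only [Function.comp_apply, hf]
    rw [LSeries.norm_term_eq, if_neg (pow_ne_zero _ hp0.ne'), Complex.norm_real, Real.norm_eq_abs]
    by_cases h0 : cubePart ((p : ℕ) ^ (j + 3)) = 0
    · rw [h0, abs_zero, zero_div]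
      exact mul_nonneg (hu0 p) (hg0 j)
    obtain ⟨q, i, hq, he, hle⟩ := abs_cubePart_le h0
    obtain ⟨hpq, -⟩ := Nat.Prime.pow_inj (hp := p.2) (hq := hq) (m := j + 2) (n := i + 2) he
    have hnum : |cubePart ((p : ℕ) ^ (j + 3))| ≤ ((p : ℕ) : ℝ) ^ δ / δ :=
      (hle.trans (hpq ▸ le_rfl)).trans (Real.log_le_rpow_div (by linarith) hδ0)
    refine (div_le_div_of_nonneg_right hnum (by positivity)).trans ?_
    simp only [hu, hg, ← hσ]
    push_cast
    rw [← Real.rpow_natCast _ (j + 3), ← Real.rpow_mul (by linarith),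
      ← Real.rpow_natCast ((2 : ℝ) ^ (-σ)) j, ← Real.rpow_mul zero_le_two, div_right_comm]
    simp only [div_mul_eq_mul_div]
    refine div_le_div_of_nonneg_right ?_ hδ0.le
    rw [← Real.rpow_sub (by linarith),
      show δ - ((j + 3 : ℕ) : ℝ) * σ = (δ - 3 * σ) + (-σ * j) by push_cast; ring,
      Real.rpow_add (by linarith)]
    refine mul_le_mul_of_nonneg_left ?_ (by positivity)
    exact Real.rpow_le_rpow_of_nonpos two_pos (by exact_mod_cast p.2.two_le)
      (by nlinarith [(Nat.cast_nonneg j : (0 : ℝ) ≤ j)])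

theorem summable_twoPart {z : ℂ} (hz : 0 < z.re) :
    LSeriesSummable (fun n => (twoPart n : ℂ)) z := by
  obtain ⟨f, hf⟩ : ∃ f : ℕ → ℕ, f = fun k => 2 ^ (k + 1) := ⟨_, rfl⟩
  have hinj : Function.Injective f := fun i j h => by
    simp only [hf] at h
    have := Nat.pow_right_injective le_rfl h
    omega
  rw [LSeriesSummable]
  refine (hinj.summable_iff fun n hn => ?_).1 ?_
  · rcases eq_or_ne n 0 with rfl | hn0
    · simp
    rw [LSeries.term_of_ne_zero hn0, twoPart]
    split_ifs with h2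
    · by_cases hpp : IsPrimePow n
      · obtain ⟨p, k, hp, hk, rfl⟩ := (isPrimePow_nat_iff n).1 hpp
        have hp2 : p = 2 := ((Nat.prime_dvd_prime_iff_eq Nat.prime_two hp).1
          (Nat.prime_two.dvd_of_dvd_pow (Nat.dvd_of_mod_eq_zero h2))).symm
        exact absurd ⟨k - 1, by simp [hf, hp2, Nat.sub_add_cancel hk]⟩ hn
      · simp [ArithmeticFunction.vonMangoldt_eq_zero_iff.2 hpp]
    · simp
  · have hr : (2 : ℝ) ^ (-z.re) < 1 := Real.rpow_lt_one_of_one_lt_of_neg one_lt_two (by linarith)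
    refine Summable.of_norm_bounded ((summable_geometric_of_lt_one (by positivity) hr).mul_left
      (Real.log 2)) fun k => ?_
    simp only [Function.comp_apply, hf]
    rw [LSeries.norm_term_eq, if_neg (pow_ne_zero _ two_ne_zero), Complex.norm_real, twoPart,
      if_pos (by rw [pow_succ]; simp),
      ArithmeticFunction.vonMangoldt_apply_pow (Nat.succ_ne_zero k),
      ArithmeticFunction.vonMangoldt_apply_prime Nat.prime_two, Real.norm_eq_abs]
    push_cast
    have h2 : (0 : ℝ) ≤ Real.log 2 := Real.log_nonneg one_le_two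
    rw [abs_of_nonneg h2, div_eq_mul_inv, ← Real.rpow_natCast (2 : ℝ) (k + 1),
      ← Real.rpow_mul zero_le_two, ← Real.rpow_neg zero_le_two, ← Real.rpow_natCast _ k,
      ← Real.rpow_mul zero_le_two]
    refine mul_le_mul_of_nonneg_left (Real.rpow_le_rpow_of_exponent_le one_le_two ?_) h2
    push_cast
    nlinarith

theorem differentiableAt_lseries_of_summable {a : ℕ → ℂ} {v : ℝ}
    (h : ∀ s : ℂ, v < s.re → LSeriesSummable a s) {z : ℂ} (hz : v < z.re) :
    DifferentiableAt ℂ (LSeries a) z :=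
  (LSeries_differentiableOn _).differentiableAt ((isOpen_re_gt_EReal _).mem_nhds
    ((LSeries.abscissaOfAbsConv_le_of_forall_lt_LSeriesSummable (x := v) fun y hy =>
      h y (by simpa using hy)).trans_lt (EReal.coe_lt_coe_iff.2 hz)))

theorem differentiableAt_squareReg {z : ℂ} (hz : 1 / 3 < z.re) (h2 : riemannZeta₁ (2 * z) ≠ 0) :
    DifferentiableAt ℂ squareReg z := by
  have hd : DifferentiableAt ℂ (fun w : ℂ => 2 * w) z := by fun_prop
  exact ((differentiableAt_lseries_of_summable (fun s hs => summable_cubePart hs) hz).sub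
    ((differentiableAt_lseries_of_summable (v := 0) (fun s hs => summable_twoPart hs)
      (show 0 < (2 * z).re by simp; linarith)).fun_comp' z hd)).sub
    (((differentiable_riemannZeta₁.deriv _).div (differentiable_riemannZeta₁ _) h2).fun_comp' z hd)

theorem zeta₁_two_mul_ne_zero {z : ℂ} (hz : 1 / 2 ≤ z.re) : riemannZeta₁ (2 * z) ≠ 0 := by
  intro h
  by_cases h1 : 2 * z = 1
  · rw [h1, riemannZeta₁_one] at h
    exact one_ne_zero h
  · exact riemannZeta_ne_zero_of_one_le_re (s := 2 * z) (by simp; linarith)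
      (by rw [riemannZeta_eq_inv_sub_mul h1, h, mul_zero])

/-- The squares. -/
theorem lSeriesHasSum_sqPart {z : ℂ} (hz : 1 / 2 < z.re) :
    LSeriesHasSum (fun n => (sqPart n : ℂ)) z
      (-(deriv riemannZeta₁ (2 * z) / riemannZeta₁ (2 * z)) + (2 * z - 1)⁻¹ -
        LSeries (fun n => (twoPart n : ℂ)) (2 * z)) := by
  have h2 : 1 < (2 * z).re := by simp; linarith
  have h21 : 2 * z ≠ 1 := fun h => by rw [h] at h2; simp at h2
  have hΛ := (ArithmeticFunction.LSeriesSummable_vonMangoldt h2).LSeriesHasSum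
  have hval : LSeries (fun n => (Λ n : ℂ)) (2 * z) =
      -(deriv riemannZeta₁ (2 * z) / riemannZeta₁ (2 * z)) + (2 * z - 1)⁻¹ := by
    have e := FA.ZeroFree.errLog_eq h21 (riemannZeta_ne_zero_of_one_lt_re h2)
    rw [FA.ZeroFree.errLog] at e
    have e3 := riemannZeta_eq_inv_sub_add h21
    rw [ArithmeticFunction.LSeries_vonMangoldt_eq_deriv_riemannZeta_div h2]
    linear_combination -e + e3
  rw [← hval]
  have hodd := hΛ.sub (summable_twoPart (z := 2 * z) (by linarith)).LSeriesHasSum
  obtain ⟨f, hf⟩ : ∃ f : ℕ → ℕ, f = fun m => m * m := ⟨_, rfl⟩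
  have hinj : Function.Injective f := fun i j h => by
    simp only [hf] at h
    exact Nat.mul_self_inj.1 h
  refine (hinj.hasSum_iff fun n hn => ?_).1 ?_
  · rcases eq_or_ne n 0 with rfl | hn0
    · simp
    rw [LSeries.term_of_ne_zero hn0, sqPart, if_neg fun h => hn (by
      obtain ⟨r, hr⟩ := h.1
      exact ⟨r, by simp [hf, hr]⟩)]
    simp
  · refine hodd.congr_fun fun m => ?_
    rcases eq_or_ne m 0 with rfl | hm
    · simp [hf]
    simp only [Function.comp_apply, hf]
    rw [LSeries.term_of_ne_zero (mul_ne_zero hm hm), LSeries.term_of_ne_zero hm, Pi.sub_apply]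
    have hden : ((m * m : ℕ) : ℂ) ^ z = (m : ℂ) ^ (2 * z) := by
      rw [two_mul, Complex.cpow_add _ _ (Nat.cast_ne_zero.2 hm), Nat.cast_mul,
        Complex.natCast_mul_natCast_cpow]
    have hodd2 : (m * m) % 2 = m % 2 := by
      rw [Nat.mul_mod]
      rcases Nat.mod_two_eq_zero_or_one m with h | h <;> simp [h]
    rw [hden, sqPart, twoPart, hodd2, ← pow_two,
      ArithmeticFunction.vonMangoldt_apply_pow two_ne_zero]
    rcases Nat.mod_two_eq_zero_or_one m with h | h
    · rw [if_neg (fun hh => by rw [h] at hh; exact absurd hh.2 zero_ne_one), if_pos h]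
      simp
    · rw [if_pos ⟨⟨m, by ring⟩, h⟩, if_neg (by omega)]
      simp

/-- **The proper prime powers.** -/
theorem lSeriesHasSum_powPart {z : ℂ} (hz : 1 / 2 < z.re) :
    LSeriesHasSum (fun n => (powPart n : ℂ)) z (squareReg z + (2 * z - 1)⁻¹) := by
  have h := ((summable_cubePart (z := z) (by linarith)).LSeriesHasSum).add (lSeriesHasSum_sqPart hz)
  have e : LSeries (fun n => (cubePart n : ℂ)) z +
      (-(deriv riemannZeta₁ (2 * z) / riemannZeta₁ (2 * z)) + (2 * z - 1)⁻¹ -
        LSeries (fun n => (twoPart n : ℂ)) (2 * z)) = squareReg z + (2 * z - 1)⁻¹ := by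
    rw [squareReg]
    ring
  rw [e] at h
  refine h.congr_fun fun n => ?_
  rcases eq_or_ne n 0 with rfl | hn
  · simp
  simp only [LSeries.term_of_ne_zero hn, Pi.add_apply, cubePart]
  push_cast
  ring

/-- **The series of the race.** -/
theorem lSeriesHasSum_raceLog {z : ℂ} (hz : 1 < z.re) :
    LSeriesHasSum (fun n => (raceLog n : ℂ)) z (raceReg z + (2 * z - 1)⁻¹) := by
  have hs := (DirichletCharacter.LSeriesSummable_twist_vonMangoldt chiFourC hz).LSeriesHasSum
  rw [DirichletCharacter.LSeries_twist_vonMangoldt_eq chiFourC hz] at hs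
  have hev : (LSeries fun n => chiFourC n) =ᶠ[𝓝 z] lChi := by
    filter_upwards [(isOpen_lt continuous_const continuous_re).mem_nhds hz] with w hw
    exact (DirichletCharacter.LFunction_eq_LSeries chiFourC hw).symm
  rw [hev.deriv_eq, hev.eq_of_nhds] at hs
  have h := hs.neg.add (lSeriesHasSum_powPart (z := z) (by linarith))
  rw [show raceReg z + (2 * z - 1)⁻¹ =
    -(-deriv lChi z / lChi z) + (squareReg z + (2 * z - 1)⁻¹) by rw [raceReg]; ring]
  refine h.congr_fun fun n => ?_
  rcases eq_or_ne n 0 with rfl | hn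
  · simp
  simp only [LSeries.term_of_ne_zero hn, Pi.add_apply, Pi.neg_apply, Pi.mul_apply, raceLog,
    powPart, properPowers, chiFourC_natCast]
  split_ifs with hp
  · rw [ArithmeticFunction.vonMangoldt_apply_prime hp]
    push_cast
    ring
  · push_cast
    ring

/-- Near `1/2` and on the real axis beyond it the regular part is holomorphic. -/
theorem differentiableAt_raceReg {z : ℂ} (hz : 1 / 3 < z.re) (h2 : riemannZeta₁ (2 * z) ≠ 0)
    (hL : lChi z ≠ 0) : DifferentiableAt ℂ raceReg z :=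
  (((differentiable_lChi.deriv z).div (differentiable_lChi z) hL)).add
    (differentiableAt_squareReg hz h2)

theorem eventually_regular {v : ℝ} (hv : 1 / 2 ≤ v) :
    ∀ᶠ z in 𝓝 (v : ℂ), lChi z ≠ 0 ∧ riemannZeta₁ (2 * z) ≠ 0 :=
  (differentiable_lChi.continuous.continuousAt.eventually_ne
    (lChi_real_ne_zero (by linarith))).and
    ((differentiable_riemannZeta₁.continuous.comp (continuous_const.mul continuous_id)
      ).continuousAt.eventually_ne (zeta₁_two_mul_ne_zero (by simpa using hv)))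

end FA.PrimeRace

end
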