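import Fermat.Agent.PrimeRace.Series
import Fermat.Agent.PrimeRace.Landau
import Fermat.Agent.OneSided.Defect

/-!
# The race of the logarithms of the primes

`∑_{p ≤ n} -χ p log p` exceeds `c √n` infinitely often for every `c < 1`, and a one-sided bound
`C n ^ α` for it keeps the zeros of `L (s, χ)` out of `re s > α`.
-/

set_option autoImplicit false

noncomputable section

namespace FA.PrimeRace

open Complex Filter Topology Set
open FA.PrimeTwoSquares (abs_chi_le)
open scoped ComplexOrder

/-- `θ (n; 4, 3) - θ (n; 4, 1)`. -/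
def thetaRace (n : ℕ) : ℝ := ∑ k ∈ Finset.Icc 1 n, raceLog k

/-- The deviation of its series. -/
def thetaDefect : ℂ → ℂ := FA.OneSided.defect fun n => (raceLog n : ℂ)

theorem summatory_raceLog (n : ℕ) :
    FA.OneSided.summatory (fun n => (raceLog n : ℂ)) n = (thetaRace n : ℂ) := by
  rw [FA.OneSided.summatory, thetaRace, ofReal_sum]

theorem norm_summatory_raceLog_le (n : ℕ) (_ : 0 < n) :
    ‖FA.OneSided.summatory (fun n => (raceLog n : ℂ)) n‖ ≤ Real.log 4 * (n : ℝ) ^ (1 : ℝ) := by
  rw [summatory_raceLog, Complex.norm_real, Real.norm_eq_abs, Real.rpow_one]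
  refine le_trans ?_ (Chebyshev.theta_le_log4_mul_x (Nat.cast_nonneg n))
  rw [Chebyshev.theta_eq_sum_Icc, Nat.floor_natCast, Finset.sum_filter, thetaRace]
  refine (Finset.abs_sum_le_sum_abs _ _).trans ?_
  refine le_trans (Finset.sum_le_sum fun k _ => ?_)
    (Finset.sum_le_sum_of_subset_of_nonneg (Finset.Icc_subset_Icc_left zero_le_one) fun k _ _ => ?_)
  · rw [raceLog]
    split_ifs
    · rw [abs_mul, abs_neg, abs_of_nonneg (Real.log_natCast_nonneg k)]
      exact mul_le_of_le_one_left (Real.log_natCast_nonneg k) (abs_chi_le k)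
    · simp
  · split_ifs
    · exact Real.log_natCast_nonneg k
    · exact le_rfl

theorem differentiableAt_thetaDefect {z : ℂ} (hz : 0 < z.re) :
    DifferentiableAt ℂ thetaDefect z :=
  (FA.OneSided.differentiableOn_defect norm_summatory_raceLog_le zero_le_one).differentiableAt
    ((isOpen_lt continuous_const continuous_re).mem_nhds (show (1 : ℝ) - 1 < z.re by linarith))

theorem hasSum_thetaRace {z : ℂ} (hz : 1 < z.re) :
    HasSum (fun n : ℕ => (thetaRace n : ℂ) * (n : ℂ) ^ (-(z + 1)))
      ((raceReg z + (2 * z - 1)⁻¹ + thetaDefect z) / z) := by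
  have h := FA.OneSided.hasSum_summatory norm_summatory_raceLog_le zero_le_one le_rfl hz
    (lSeriesHasSum_raceLog hz).LSeriesSummable
  rw [(lSeriesHasSum_raceLog hz).LSeries_eq] at h
  simpa only [summatory_raceLog, thetaDefect] using h

theorem two_mul_sub_ne_zero {z : ℂ} (hz : 1 / 2 < z.re) : 2 * z - 1 ≠ 0 := fun h => by
  have := congrArg Complex.re h
  simp at this
  linarith

/-- **A one-sided bound keeps zeros out.** -/
theorem lChi_ne_zero_of_one_sided {α C e : ℝ} (hα : 1 / 2 ≤ α) (he : e ≠ 0)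
    (h : ∀ᶠ n : ℕ in atTop, e * thetaRace n ≤ C * (n : ℝ) ^ α) {ρ : ℂ} (hρ : α < ρ.re) :
    lChi ρ ≠ 0 := by
  intro h0
  rcases le_or_gt 1 ρ.re with h1 | h1
  · exact lChi_ne_zero_of_one_le_re h1 h0
  have hU : AnalyticOnNhd ℂ lChi univ :=
    differentiable_lChi.differentiableOn.analyticOnNhd isOpen_univ
  have htop : analyticOrderAt lChi ρ ≠ ⊤ := by
    refine hU.analyticOrderAt_ne_top_of_isPreconnected isPreconnected_univ (x := (2 : ℂ))
      (mem_univ _) (mem_univ _) ?_
    rw [analyticOrderAt_eq_zero.2 (Or.inr (lChi_ne_zero_of_one_le_re (by norm_num)))]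
    exact ENat.zero_ne_top
  obtain ⟨g, hg, hg0, heq⟩ := (hU ρ (mem_univ ρ)).analyticOrderAt_ne_top.1 htop
  generalize analyticOrderNatAt lChi ρ = m at heq
  have hm : m ≠ 0 := by
    rintro rfl
    have := heq.eq_of_nhds
    simp only [pow_zero, one_smul] at this
    exact hg0 (this ▸ h0)
  classical
  obtain ⟨q, hq⟩ : ∃ q : ℂ → ℂ, q = fun z => if z = ρ then g ρ else lChi z / (z - ρ) ^ m :=
    ⟨_, rfl⟩
  have hfac : ∀ z, lChi z = (z - ρ) ^ m * q z := fun z => by
    rw [hq]
    simp only
    split_ifs with hz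
    · rw [hz, sub_self, zero_pow hm, zero_mul, h0]
    · rw [mul_div_cancel₀ _ (pow_ne_zero _ (sub_ne_zero.2 hz))]
  have hqd : Differentiable ℂ q := by
    intro z
    by_cases hz : z = ρ
    · subst hz
      refine hg.differentiableAt.congr_of_eventuallyEq ?_
      filter_upwards [heq] with w hw
      rw [hq]
      simp only
      split_ifs with hwz
      · rw [hwz]
      · rw [hw, smul_eq_mul, mul_div_cancel_left₀ _ (pow_ne_zero _ (sub_ne_zero.2 hwz))]
    · refine ((differentiable_lChi z).div ((differentiableAt_id.sub_const ρ).pow m)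
        (pow_ne_zero _ (sub_ne_zero.2 hz))).congr_of_eventuallyEq ?_
      filter_upwards [eventually_ne_nhds hz] with w hw
      simp [hq, hw]
  have hqρ : q ρ = g ρ := by simp [hq]
  have hne : ∀ z, lChi z ≠ 0 → z - ρ ≠ 0 ∧ q z ≠ 0 := fun z hz => by
    rw [hfac, mul_ne_zero_iff, pow_ne_zero_iff hm] at hz
    exact hz
  obtain ⟨Gn, hGn⟩ : ∃ Gn : ℂ → ℂ, Gn = fun z => m * q z + (z - ρ) * deriv q z := ⟨_, rfl⟩
  have hzero := FA.OneSided.numerator_eq_zero_of_one_sided (γ := α) (by linarith) he h
    (Gn := Gn) (Gd := fun z => z * ((z - ρ) * q z))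
    (R := fun z => (squareReg z + (2 * z - 1)⁻¹ + thetaDefect z) / z) ?_ ?_ ?_ ?_ ?_ hρ (by simp)
  · rw [hGn] at hzero
    simp only [sub_self, zero_mul, add_zero, mul_eq_zero, Nat.cast_eq_zero, hm, false_or] at hzero
    exact hg0 (hqρ ▸ hzero)
  · rw [hGn]
    exact fun z _ => ((hqd z).const_mul _).add
      ((differentiableAt_id.sub_const ρ).mul (hqd.deriv z)) |>.differentiableWithinAt
  · exact fun z _ => (differentiableAt_id.mul
      ((differentiableAt_id.sub_const ρ).mul (hqd z))).differentiableWithinAt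
  · intro z hz
    have hz' : α < z.re := hz
    have hz2 : 1 / 2 < z.re := by linarith
    refine DifferentiableAt.differentiableWithinAt ?_
    refine (((differentiableAt_squareReg (by linarith) (zeta₁_two_mul_ne_zero hz2.le)).add
      (((differentiableAt_id.const_mul 2).sub_const 1).inv (two_mul_sub_ne_zero hz2))).add
        (differentiableAt_thetaDefect (by linarith))).div differentiableAt_id ?_
    exact fun h0 => by
      simp [show z = 0 from h0] at hz2
      linarith
  · intro x hx
    obtain ⟨a, b⟩ := hne x (lChi_real_ne_zero (by linarith))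
    exact mul_ne_zero (ofReal_ne_zero.2 (by linarith)) (mul_ne_zero a b)
  · intro z hz
    have hz0 : z ≠ 0 := fun h => by simp [h] at hz; linarith
    have hL := lChi_ne_zero_of_one_le_re hz.le
    obtain ⟨a, b⟩ := hne z hL
    refine ⟨mul_ne_zero hz0 (mul_ne_zero a b), ?_⟩
    have hd : deriv lChi z = m * (z - ρ) ^ (m - 1) * q z + (z - ρ) ^ m * deriv q z := by
      rw [show lChi = fun w => (w - ρ) ^ m * q w from funext hfac]
      have h1 : HasDerivAt (fun w : ℂ => (w - ρ) ^ m) ((m : ℂ) * (z - ρ) ^ (m - 1)) z := by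
        simpa using ((hasDerivAt_id z).sub_const ρ).fun_pow m
      exact (h1.mul (hqd z).hasDerivAt).deriv
    have key : (raceReg z + (2 * z - 1)⁻¹ + thetaDefect z) / z =
        Gn z / (z * ((z - ρ) * q z)) + (squareReg z + (2 * z - 1)⁻¹ + thetaDefect z) / z := by
      have hlog : deriv lChi z / lChi z = Gn z / ((z - ρ) * q z) := by
        rw [hd, hfac z, hGn]
        obtain ⟨k, rfl⟩ := Nat.exists_eq_succ_of_ne_zero hm
        simp only [Nat.add_sub_cancel, Nat.succ_eq_add_one, pow_succ]
        field_simp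
      rw [raceReg, hlog]
      generalize (2 * z - 1)⁻¹ = X
      generalize (z - ρ) * q z = Y
      simp only [div_eq_mul_inv, mul_inv]
      ring
    rw [← key]
    exact hasSum_thetaRace hz

/-- **The bias of `θ`.** -/
theorem frequently_thetaRace_gt {c : ℝ} (hc : c < 1) :
    ∃ᶠ n : ℕ in atTop, c * Real.sqrt n < thetaRace n := by
  intro h
  simp only [not_lt, Real.sqrt_eq_rpow] at h
  obtain ⟨N, hN⟩ := eventually_atTop.1 h
  obtain ⟨b, hb⟩ : ∃ b, b = gapTail thetaRace c N := ⟨_, rfl⟩
  have hb0 : 0 ≤ b := hb ▸ gapTail_nonneg hN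
  obtain ⟨Den, hDen⟩ : ∃ Den : ℂ → ℂ,
      Den = fun w => (w - 1 - 1 / 2) * (w - 1) * lChi (w - 1) := ⟨_, rfl⟩
  obtain ⟨Num, hNum⟩ : ∃ Num : ℂ → ℂ, Num = fun w =>
      (w - 1) * lChi (w - 1) * ((c : ℂ) * riemannZeta₁ (w - 1 + 1 / 2) -
        (w - 1 - 1 / 2) * gapHead thetaRace c N (w - 1)) -
      (w - 1 - 1 / 2) * (deriv lChi (w - 1) + lChi (w - 1) * (squareReg (w - 1) +
        (2 * (w - 1) - 1)⁻¹ + thetaDefect (w - 1))) := ⟨_, rfl⟩
  have hser : ∀ w : ℂ, 2 < w.re → LSeriesHasSum b w ((c : ℂ) * riemannZeta (w - 1 + 1 / 2) -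
      (raceReg (w - 1) + (2 * (w - 1) - 1)⁻¹ + thetaDefect (w - 1)) / (w - 1) -
      gapHead thetaRace c N (w - 1)) := fun w hw => by
    have := lSeriesHasSum_gapTail (C := c) (N := N) (z := w - 1) (by simp; linarith)
      (hasSum_thetaRace (z := w - 1) (by simp; linarith))
    rwa [sub_add_cancel, ← hb] at this
  have hid : ∀ w : ℂ, 2 < w.re → Den w * LSeries b w = Num w := by
    intro w hw
    have hL := lChi_ne_zero_of_one_le_re (s := w - 1) (by simp; linarith)
    have hw1 : w - 1 ≠ 0 := fun h => by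
      have := congrArg Complex.re h
      simp at this
      linarith
    have hne : w - 1 + 1 / 2 ≠ 1 := fun h => by
      have := congrArg Complex.re h
      simp at this
      linarith
    have hne' : w - 1 - 1 / 2 ≠ 0 := fun h => hne (by linear_combination h)
    rw [(hser w hw).LSeries_eq, riemannZeta_eq_inv_sub_mul hne,
      show w - 1 + 1 / 2 - 1 = w - 1 - 1 / 2 by ring, raceReg]
    simp only [hDen, hNum]
    generalize hzdef : w - 1 = z at *
    generalize hX : (2 * z - 1)⁻¹ = X
    generalize hE : z - 1 / 2 = d at *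
    field_simp
    ring
  have hDd : DifferentiableOn ℂ Den {w | (3 / 2 : ℝ) < w.re} := by
    have := differentiable_lChi
    rw [hDen]
    exact Differentiable.differentiableOn (by fun_prop)
  have hNd : DifferentiableOn ℂ Num {w | (3 / 2 : ℝ) < w.re} := by
    intro w (hw : 3 / 2 < w.re)
    have hz : 1 / 2 < (w - 1).re := by simp; linarith
    have hs := (differentiableAt_id.sub_const 1 : DifferentiableAt ℂ (fun w : ℂ => w - 1) w)
    have hL := (differentiable_lChi (w - 1)).fun_comp' w hs
    rw [hNum]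
    refine DifferentiableAt.differentiableWithinAt ?_
    exact ((hs.mul hL).mul ((((differentiable_riemannZeta₁ _).fun_comp' w
      (hs.add_const (1 / 2))).const_mul _).sub ((hs.sub_const _).mul
        ((differentiable_gapHead _).fun_comp' w hs)))).sub ((hs.sub_const _).mul
      (((differentiable_lChi.deriv _).fun_comp' w hs).add (hL.mul
        ((((differentiableAt_squareReg (by linarith) (zeta₁_two_mul_ne_zero hz.le)).fun_comp' w
          hs).add (((hs.const_mul 2).sub_const 1).inv (two_mul_sub_ne_zero hz))).add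
            ((differentiableAt_thetaDefect (by linarith)).fun_comp' w hs)))))
  have hD0 : ∀ x : ℝ, 3 / 2 < x → Den x ≠ 0 := by
    intro x hx
    simp only [hDen]
    have e1 : (x : ℂ) - 1 = ((x - 1 : ℝ) : ℂ) := by push_cast; rfl
    rw [e1]
    refine mul_ne_zero (mul_ne_zero ?_ (ofReal_ne_zero.2 (by linarith)))
      (lChi_real_ne_zero (by linarith))
    exact fun h => by
      have := congrArg Complex.re h
      simp at this
      linarith
  have hlim : Tendsto (fun t : ℝ => ((t - 1 / 2 : ℝ) : ℂ) * LSeries b ((t : ℂ) + 1))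
      (𝓝[>] (1 / 2)) (𝓝 ((c : ℂ) - 1)) := by
    obtain ⟨K, hK⟩ : ∃ K : ℂ → ℂ, K = fun z => (c : ℂ) * riemannZeta₁ (z + 1 / 2) -
        ((z - 1 / 2) * (deriv lChi z / lChi z + squareReg z + thetaDefect z) + 1 / 2) / z -
        (z - 1 / 2) * gapHead thetaRace c N z := ⟨_, rfl⟩
    have hKc : ContinuousAt K ((1 / 2 : ℝ) : ℂ) := by
      obtain ⟨hL, hz2⟩ := (eventually_regular (v := 1 / 2) le_rfl).self_of_nhds
      have hs := differentiableAt_squareReg (z := ((1 / 2 : ℝ) : ℂ)) (by simp; norm_num) hz2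
      have ht := differentiableAt_thetaDefect (z := ((1 / 2 : ℝ) : ℂ)) (by simp)
      rw [hK]
      refine DifferentiableAt.continuousAt (𝕜 := ℂ) ?_
      exact ((((differentiable_riemannZeta₁ _).fun_comp' _
        (differentiableAt_id.add_const _)).const_mul _).sub
          ((((differentiableAt_id.sub_const _).mul (((((differentiable_lChi.deriv _).div
            (differentiable_lChi _) hL)).add hs).add ht)).add_const _).div differentiableAt_id
              (by simp))).sub ((differentiableAt_id.sub_const _).mul (differentiable_gapHead _))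
    have hK0 : K ((1 / 2 : ℝ) : ℂ) = (c : ℂ) - 1 := by
      rw [hK]
      push_cast
      rw [show (1 / 2 : ℂ) + 1 / 2 = 1 by norm_num, riemannZeta₁_one, sub_self]
      norm_num
    rw [← hK0]
    refine ((hKc.comp Complex.continuous_ofReal.continuousAt).tendsto.mono_left
      nhdsWithin_le_nhds).congr' ?_
    filter_upwards [self_mem_nhdsWithin] with t (ht : 1 / 2 < t)
    obtain ⟨-, he⟩ := FA.OneSided.lSeriesSummable_of_nonneg hb0
      (fun w hw => (hser w hw).LSeriesSummable) hid hNd hDd hD0 (w := (t : ℂ) + 1)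
      (by simp; linarith)
    have hd : (t : ℂ) - 1 / 2 ≠ 0 := fun h => by
      have := congrArg Complex.re h
      simp at this
      linarith
    have hz0 : (t : ℂ) ≠ 0 := ofReal_ne_zero.2 (by linarith)
    have hL := lChi_real_ne_zero (show 0 < t by linarith)
    have hX : (2 * (t : ℂ) - 1)⁻¹ = 1 / 2 / ((t : ℂ) - 1 / 2) := by field_simp
    simp only [hDen, hNum, add_sub_cancel_right] at he
    rw [hX] at he
    simp only [Function.comp_apply, hK]
    rw [show ((t - 1 / 2 : ℝ) : ℂ) = (t : ℂ) - 1 / 2 by push_cast; ring]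
    have he2 : ((t : ℂ) - 1 / 2) * LSeries b ((t : ℂ) + 1) =
        (((t : ℂ) - 1 / 2) * (t : ℂ) * lChi t * LSeries b ((t : ℂ) + 1)) /
          ((t : ℂ) * lChi t) := by
      field_simp
    rw [he2, he]
    generalize hd' : (t : ℂ) - 1 / 2 = d at *
    field_simp
    ring
  have := zero_le_of_tendsto hb0 hlim
  simp at this
  linarith

end FA.PrimeRace

end
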